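import Fermat.Agent.H94.FF.G7Interfaces2
import Fermat.Agent.H94.FF.G7Kernel

/-!
# P-FF row 822 (FF-G7-F2FAM): the family `F2(s) = ∑ κ_j(s) m_j` (helper62)

`f2Family : AuxSections → LiftBasis → TaylorApprox → RootApprox → DiscZero → RedKernel → Cramer →
UnrCoord → Fermat.Agent.H94.FF.F2FamilyStatement`.
-/

set_option autoImplicit false
set_option synthInstance.maxHeartbeats 400000
set_option linter.style.haveILetI false
set_option linter.unusedSectionVars false
set_option linter.unusedVariables false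

noncomputable section

open AlgebraicCurve ModularCurve Fermat.Agent.H18 Fermat.Agent.H27.ESD

namespace Fermat.Agent.H62.FF

open Fermat.Agent.H10.FF Fermat.Agent.H72.FF Fermat.Agent.H94.FF

section Lemmas

variable {N ℓ : ℕ} {A : ValuationSubring Qb}
  {r : Place Qb (FLb N) → Place (kRes A) (Fkb A N)} {g : ℕ}

/-- elements of `L(n P∞)` have no poles on the discs away from `r P∞` -/
theorem nopole_disc {Pinf : Place Qb (FLb N)} {n : ℤ} {y : FLb N}
    (hy : y ∈ riemannRochSpace (Finsupp.single Pinf n)) {Q : Place (kRes A) (Fkb A N)}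
    (hQ : Q ≠ r Pinf) (P1 : Place Qb (FLb N)) (hP1 : r P1 = Q) : 0 ≤ P1.ord y := by
  refine ord_nonneg_of_mem_rr_single hy ?_
  rintro rfl
  exact hQ hP1.symm

/-- a family of points in the disc of `Q` at which the values of unramified functions without
poles on the disc are approximable -/
def IsApproxPts (ℓ : ℕ) (A : ValuationSubring Qb) (N : ℕ)
    (r : Place Qb (FLb N) → Place (kRes A) (Fkb A N)) {S : Type} {n : ℕ}
    (x : S → Fin n → Qb) (Q : Place (kRes A) (Fkb A N)) (pt : S → Place Qb (FLb N)) : Prop :=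
  (∀ s, r (pt s) = Q) ∧
    ∀ y : gaussRing A N, IsUnrFn A N (y : FLb N) →
      (∀ P1, r P1 = Q → 0 ≤ P1.ord (y : FLb N)) →
      IsApprox ℓ A x (fun s => valAt (pt s) (y : FLb N))

/-- points with approximable coordinate -/
theorem isApproxPts_of_coord (hTA : TaylorApproxStatement) (hS : GeoSetup N ℓ A r g)
    {Q : Place (kRes A) (Fkb A N)} {P : Place Qb (FLb N)} {t : gaussRing A N}
    (ht : IsUnrCoord A N r Q P t) {S : Type} [Finite S] {n : ℕ} (x : S → Fin n → Qb)
    (hx : ∀ s i, x s i ∈ A.nonunits) (pt : S → Place Qb (FLb N)) (τ : S → Qb)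
    (hpt : ∀ s, r (pt s) = Q) (hτ : ∀ s, HasValue (pt s) (t : FLb N) (τ s))
    (hτA : IsApprox ℓ A x τ) : IsApproxPts ℓ A N r x Q pt := by
  refine ⟨hpt, fun y hy hnp => ?_⟩
  refine hTA N ℓ A r g hS Q P t ht y hy hnp S n x hx pt τ _ hpt hτ (fun s => ?_) hτA
  exact hasVal_valAt_of_ord (hS.pkgL.deg_one _) (hnp _ (hpt s))

/-- a constant unramified point -/
theorem isApproxPts_const (hS : GeoSetup N ℓ A r g) {P : Place Qb (FLb N)}
    (hP : IsUnrPlace A N P) {S : Type} {n : ℕ} (x : S → Fin n → Qb) :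
    IsApproxPts ℓ A N r x (r P) (fun _ : S => P) := by
  refine ⟨fun _ => rfl, fun y hy hnp => ?_⟩
  refine isApprox_const' ?_
  refine isUnr_value_mem_unrInt hS.rv y P hnp hP hy _ ?_
  exact hasVal_valAt_of_ord (hS.pkgL.deg_one _) (hnp _ rfl)

/-- **Step (2)**: the values `α s = u(pt s)` of an auxiliary section at points with approximable
coordinates. -/
theorem exists_alpha (hTA : TaylorApproxStatement) (hS : GeoSetup N ℓ A r g)
    {Q : Place (kRes A) (Fkb A N)} {P : Place Qb (FLb N)} {t : gaussRing A N}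
    (ht : IsUnrCoord A N r Q P t)
    {Pinf : Place Qb (FLb N)} {nn : ℕ} (u : gaussRing A N) (huU : IsUnrFn A N (u : FLb N))
    (huRR : (u : FLb N) ∈ riemannRochSpace (Finsupp.single Pinf (nn : ℤ)))
    (hQ : Q ≠ r Pinf) (hzero : Q.ord (gaussRed A N u) = 1)
    {S : Type} [Finite S] {n : ℕ} (x : S → Fin n → Qb) (hx : ∀ s i, x s i ∈ A.nonunits)
    (pt : S → Place Qb (FLb N)) (τ : S → Qb) (hpt : ∀ s, r (pt s) = Q)
    (hτ : ∀ s, HasValue (pt s) (t : FLb N) (τ s)) (hτA : IsApprox ℓ A x τ) :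
    ∃ α : S → A, (∀ s, HasValue (pt s) (u : FLb N) (α s : Qb)) ∧
      IsApprox ℓ A x (fun s => (α s : Qb)) ∧ ∀ s, IsLocalRing.residue A (α s) = 0 := by
  have hnp : ∀ P1, r P1 = Q → 0 ≤ P1.ord (u : FLb N) := nopole_disc huRR hQ
  have hval : ∀ s, HasValue (pt s) (u : FLb N) (valAt (pt s) (u : FLb N)) := fun s =>
    hasVal_valAt_of_ord (hS.pkgL.deg_one _) (hnp _ (hpt s))
  have hQ0 : HasVal Q (gaussRed A N u) 0 := by
    rw [hasVal_zero_iff]
    right
    rw [hzero]
  have hnu : ∀ s, valAt (pt s) (u : FLb N) ∈ A.nonunits := fun s =>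
    hasValue_nonunit hS.rv u Q hnp hQ0 (pt s) (hpt s) _ (hval s)
  have hex : ∀ s, ∃ ha : valAt (pt s) (u : FLb N) ∈ A,
      (⟨valAt (pt s) (u : FLb N), ha⟩ : A) ∈ IsLocalRing.maximalIdeal A := fun s =>
    (ValuationSubring.mem_nonunits_iff_exists_mem_maximalIdeal).mp (hnu s)
  choose ha hmax using hex
  refine ⟨fun s => ⟨valAt (pt s) (u : FLb N), ha s⟩, hval, ?_, fun s => ?_⟩
  · exact (isApproxPts_of_coord hTA hS ht x hx pt τ hpt hτ hτA).2 u huU hnp
  · exact (IsLocalRing.residue_eq_zero_iff _).mpr (hmax s)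

/-- **Step (3)**: the extra zeros `E s` of `u - α s` in the disc of a simple zero `v` of the
reduction of `u`. -/
theorem exists_extra (hTA : TaylorApproxStatement) (hRA : RootApproxStatement)
    (hDZ : DiscZeroStatement) (hCoord : UnrCoordStatement) (hS : GeoSetup N ℓ A r g)
    {Pinf : Place Qb (FLb N)} {nn : ℕ} (u : gaussRing A N) (huU : IsUnrFn A N (u : FLb N))
    (huRR : (u : FLb N) ∈ riemannRochSpace (Finsupp.single Pinf (nn : ℤ)))
    (v : Place (kRes A) (Fkb A N)) (hv : v ≠ r Pinf) (hzero : v.ord (gaussRed A N u) = 1)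
    {S : Type} [Finite S] {n : ℕ} (x : S → Fin n → Qb) (hx : ∀ s i, x s i ∈ A.nonunits)
    (α : S → A) (hαA : IsApprox ℓ A x (fun s => (α s : Qb)))
    (hα0 : ∀ s, IsLocalRing.residue A (α s) = 0) :
    ∃ E : S → Place Qb (FLb N), IsApproxPts ℓ A N r x v E ∧
      ∀ s P1, r P1 = v →
        HasValue P1 ((u : FLb N) - algebraMap Qb (FLb N) (α s : Qb)) 0 → P1 = E s := by
  have hnpu : ∀ P1, r P1 = v → 0 ≤ P1.ord (u : FLb N) := nopole_disc huRR hv
  -- the functions `w s = u - α s`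
  have hwcoe : ∀ s, ((u - gaussConst A N (α s) : gaussRing A N) : FLb N)
      = (u : FLb N) - algebraMap Qb (FLb N) (α s : Qb) := fun s => rfl
  have hwred : ∀ s, gaussRed A N (u - gaussConst A N (α s)) = gaussRed A N u := by
    intro s
    rw [map_sub, gaussRed_gaussConst, hα0, map_zero, sub_zero]
  have hwnp : ∀ s P1, r P1 = v →
      0 ≤ P1.ord ((u - gaussConst A N (α s) : gaussRing A N) : FLb N) := by
    intro s P1 hP1
    obtain ⟨c, hc⟩ := exists_hasVal (P := P1) (hS.pkgL.deg_one _) (hnpu P1 hP1)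
    rw [hwcoe]
    exact (hc.sub (hasVal_const P1 (α s : Qb))).ord_nonneg
  have hex : ∀ s, ∃ P, r P = v ∧
      P.ord ((u - gaussConst A N (α s) : gaussRing A N) : FLb N) = 1 ∧
      ∀ P1, r P1 = v → P1 ≠ P →
        P1.ord ((u - gaussConst A N (α s) : gaussRing A N) : FLb N) = 0 := fun s =>
    hDZ N ℓ A r g hS v (u - gaussConst A N (α s)) (by rw [hwred, hzero]) (hwnp s)
  choose E hEv hE1 hEuniq using hex
  -- the coordinate at `v`
  obtain ⟨Pv, tv, hcoord⟩ := hCoord N ℓ A r g hS v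
  have hτE : ∀ s, HasValue (E s) (tv : FLb N) (valAt (E s) (tv : FLb N)) := fun s =>
    hasVal_valAt_of_ord (hS.pkgL.deg_one _) (hcoord.nopole _ (hEv s))
  -- approximability of the coordinate of `E s`
  have he1 : ∀ s, (∑ j : Fin 2,
      gaussConst A N ((![fun _ => 1, fun s => -α s] : Fin 2 → S → A) j s)
        * (![u, 1] : Fin 2 → gaussRing A N) j) = u - gaussConst A N (α s) := by
    intro s
    rw [Fin.sum_univ_two]
    apply Subtype.ext
    show algebraMap Qb (FLb N) ((1 : A) : Qb) * (u : FLb N)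
        + algebraMap Qb (FLb N) ((-α s : A) : Qb) * ((1 : gaussRing A N) : FLb N)
      = (u : FLb N) - algebraMap Qb (FLb N) (α s : Qb)
    have h1 : ((1 : A) : Qb) = 1 := rfl
    have h2 : ((-α s : A) : Qb) = -(α s : Qb) := rfl
    have h3 : ((1 : gaussRing A N) : FLb N) = 1 := rfl
    rw [h1, h2, h3, map_one, map_neg]
    ring
  have hτEA : IsApprox ℓ A x (fun s => valAt (E s) (tv : FLb N)) := by
    refine hRA N ℓ A r g hS v Pv tv hcoord 2 ![u, 1] ?_ ?_ S n x hx
      ![fun _ => 1, fun s => -α s] ?_ ?_ E _ hEv hτE ?_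
    · intro j
      fin_cases j
      · exact huU
      · intro σ hσ
        show galF N σ • ((1 : gaussRing A N) : FLb N) = ((1 : gaussRing A N) : FLb N)
        have h3 : ((1 : gaussRing A N) : FLb N) = 1 := rfl
        rw [h3, smul_one]
    · intro j P1 hP1
      fin_cases j
      · exact hnpu P1 hP1
      · show 0 ≤ P1.ord ((1 : gaussRing A N) : FLb N)
        have h3 : ((1 : gaussRing A N) : FLb N) = 1 := rfl
        rw [h3, Place.ord_one]
    · intro j
      fin_cases j
      · exact isApprox_const' (unrInt A).one_mem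
      · exact IsApprox.neg' hαA
    · intro s
      rw [he1, hwred, hzero]
    · intro s
      rw [he1]
      show HasVal (E s) _ 0
      rw [hasVal_zero_iff]
      right
      rw [hE1 s]
  refine ⟨E, isApproxPts_of_coord hTA hS hcoord x hx E _ hEv hτE hτEA, ?_⟩
  intro s P1 hP1 hval
  by_contra hne
  have h0 := hEuniq s P1 hP1 hne
  rw [hwcoe] at h0
  have h1 := hE1 s
  rw [hwcoe] at h1
  rcases (hasVal_zero_iff P1).mp hval with h | h
  · rw [h, Place.ord_zero] at h1
    exact zero_ne_one h1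
  · omega

set_option maxHeartbeats 1600000 in
/-- **Steps (4), (5)**: Cramer's rule for the conditions "vanish at the points `pt c s`". -/
theorem exists_kappa (hCr : CramerStatement) (hS : GeoSetup N ℓ A r g)
    {S : Type} [Finite S] {n : ℕ} (x : S → Fin n → Qb) (hx : ∀ s i, x s i ∈ A.nonunits)
    {ι : Type} [Fintype ι] (d : ℕ) (hcard : Fintype.card ι = d)
    (Qc : ι → Place (kRes A) (Fkb A N)) (pt : ι → S → Place Qb (FLb N))
    (hpt : ∀ c, IsApproxPts ℓ A N r x (Qc c) (pt c))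
    (m : Fin (d + 1) → gaussRing A N) (hmU : ∀ j, IsUnrFn A N (m j : FLb N))
    (hmnp : ∀ c j P1, r P1 = Qc c → 0 ≤ P1.ord (m j : FLb N))
    (hker : ∀ v w : Fin (d + 1) → kRes A,
      (∀ c, HasVal (Qc c) (∑ j, algebraMap (kRes A) (Fkb A N) (v j) * gaussRed A N (m j)) 0) →
      (∀ c, HasVal (Qc c) (∑ j, algebraMap (kRes A) (Fkb A N) (w j) * gaussRed A N (m j)) 0) →
      v ≠ 0 → ∃ a : kRes A, w = a • v) :
    ∃ κ : Fin (d + 1) → S → A, (∀ j, IsApprox ℓ A x (fun s => (κ j s : Qb))) ∧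
      (∀ s c, HasValue (pt c s)
        (((∑ j, gaussConst A N (κ j s) * m j : gaussRing A N)) : FLb N) 0) ∧
      (∀ s c, HasVal (Qc c) (∑ j, algebraMap (kRes A) (Fkb A N)
        (IsLocalRing.residue A (κ j s)) * gaussRed A N (m j)) 0) ∧
      (∀ s, ∃ j, IsLocalRing.residue A (κ j s) ≠ 0) := by
  classical
  let e : ι ≃ Fin d := Fintype.equivFinOfCardEq hcard
  -- values
  have hC : ∀ c j s, HasValue (pt c s) (m j : FLb N) (valAt (pt c s) (m j : FLb N)) :=
    fun c j s => hasVal_valAt_of_ord (hS.pkgL.deg_one _) (hmnp c j _ ((hpt c).1 s))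
  have hCred : ∀ c j s, ∃ hcA : valAt (pt c s) (m j : FLb N) ∈ A,
      HasVal (Qc c) (gaussRed A N (m j))
        (IsLocalRing.residue A ⟨valAt (pt c s) (m j : FLb N), hcA⟩) := fun c j s =>
    hasValue_red hS.rv (m j) (Qc c) (hmnp c j) (pt c s) ((hpt c).1 s) _ (hC c j s)
  choose hCA hCval using hCred
  -- Cramer
  obtain ⟨κ', hκA, hκmem, hκeq, hκunit⟩ := hCr ℓ A hS.prime hS.liesOver S n x hx d
    (fun c j s => valAt (pt (e.symm c) s) (m j : FLb N))
    (fun s c j => valAt (Qc (e.symm c)) (gaussRed A N (m j)))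
    (fun c j => (hpt (e.symm c)).2 (m j) (hmU j) (hmnp (e.symm c) j))
    (fun c j s => ⟨hCA (e.symm c) j s, ((hCval (e.symm c) j s).valAt_eq).symm⟩)
    (by
      intro s v w hv hw hv0
      have key : ∀ v : Fin (d + 1) → kRes A,
          (∀ c, ∑ j, valAt (Qc (e.symm c)) (gaussRed A N (m j)) * v j = 0) →
          ∀ c, HasVal (Qc c)
            (∑ j, algebraMap (kRes A) (Fkb A N) (v j) * gaussRed A N (m j)) 0 := by
        intro v hv c
        have h1 : HasVal (Qc c)
            (∑ j, algebraMap (kRes A) (Fkb A N) (v j) * gaussRed A N (m j))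
            (∑ j, v j * valAt (Qc c) (gaussRed A N (m j))) :=
          hasVal_sum _ _ _ fun j _ => HasVal.const_mul (v j) (hasVal_valAt ⟨_, hCval c j s⟩)
        have h2 : ∑ j, v j * valAt (Qc c) (gaussRed A N (m j)) = 0 := by
          have := hv (e c)
          simp only [Equiv.symm_apply_apply] at this
          rw [← this]
          exact Finset.sum_congr rfl fun j _ => mul_comm _ _
        rw [h2] at h1
        exact h1
      exact hker v w (key v hv) (key w hw) hv0)
  refine ⟨fun j s => ⟨κ' j s, hκmem j s⟩, fun j => hκA j, fun s c => ?_, fun s c => ?_,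
    fun s => ?_⟩
  · have hcoe : ((∑ j, gaussConst A N (⟨κ' j s, hκmem j s⟩ : A) * m j : gaussRing A N) : FLb N)
        = ∑ j, algebraMap Qb (FLb N) (κ' j s) * (m j : FLb N) := by
      show (gaussRing A N).subtype (∑ j, gaussConst A N (⟨κ' j s, hκmem j s⟩ : A) * m j) = _
      rw [map_sum]
      rfl
    rw [hcoe]
    have h1 : HasVal (pt c s) (∑ j, algebraMap Qb (FLb N) (κ' j s) * (m j : FLb N))
        (∑ j, κ' j s * valAt (pt c s) (m j : FLb N)) :=
      hasVal_sum _ _ _ fun j _ => HasVal.const_mul (κ' j s) (hC c j s)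
    have h2 : ∑ j, κ' j s * valAt (pt c s) (m j : FLb N) = 0 := by
      have := hκeq s (e c)
      simp only [Equiv.symm_apply_apply] at this
      rw [← this]
      exact Finset.sum_congr rfl fun j _ => mul_comm _ _
    rw [h2] at h1
    exact h1
  · have h1 : HasVal (Qc c) (∑ j, algebraMap (kRes A) (Fkb A N)
        (IsLocalRing.residue A (⟨κ' j s, hκmem j s⟩ : A)) * gaussRed A N (m j))
        (∑ j, IsLocalRing.residue A (⟨κ' j s, hκmem j s⟩ : A) *
          IsLocalRing.residue A ⟨valAt (pt c s) (m j : FLb N), hCA c j s⟩) :=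
      hasVal_sum _ _ _ fun j _ => HasVal.const_mul _ (hCval c j s)
    have hA0 : (∑ j, (⟨κ' j s, hκmem j s⟩ : A) *
        (⟨valAt (pt c s) (m j : FLb N), hCA c j s⟩ : A)) = 0 := by
      apply Subtype.ext
      show A.subtype (∑ j, (⟨κ' j s, hκmem j s⟩ : A) *
        (⟨valAt (pt c s) (m j : FLb N), hCA c j s⟩ : A)) = 0
      rw [map_sum]
      have := hκeq s (e c)
      simp only [Equiv.symm_apply_apply] at this
      rw [← this]
      exact Finset.sum_congr rfl fun j _ => mul_comm _ _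
    have h2 : (∑ j, IsLocalRing.residue A (⟨κ' j s, hκmem j s⟩ : A) *
        IsLocalRing.residue A ⟨valAt (pt c s) (m j : FLb N), hCA c j s⟩) = 0 := by
      simp only [← map_mul]
      rw [← map_sum, hA0, map_zero]
    rw [h2] at h1
    exact h1
  · obtain ⟨j, hne, hinv⟩ := hκunit s
    refine ⟨j, fun h0 => ?_⟩
    have hnu : ¬ IsUnit (⟨κ' j s, hκmem j s⟩ : A) := (hS.rv.hker _).mp h0
    apply hnu
    refine ⟨⟨⟨κ' j s, hκmem j s⟩, ⟨(κ' j s)⁻¹, hinv⟩, ?_, ?_⟩, rfl⟩
    · exact Subtype.ext (mul_inv_cancel₀ hne)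
    · exact Subtype.ext (inv_mul_cancel₀ hne)

end Lemmas

section Index

variable {K F : Type} [Field K] [Field F] [Algebra K F] {F' K' : Type} [Field K'] [Field F']
  [Algebra K' F'] {g : ℕ}

/-- the index type of the conditions: the `g` points `O i` and the extra zeros -/
abbrev CondIdx (g : ℕ) (Zx : Fin g ⊕ Fin g → Finset (Place K F)) : Type :=
  Fin g ⊕ (Σ a : Fin g ⊕ Fin g, ↥(Zx a))

/-- the reductions of the condition points -/
abbrev condQ (Qs : Fin g → Place K F) (Zx : Fin g ⊕ Fin g → Finset (Place K F)) :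
    CondIdx g Zx → Place K F :=
  Sum.elim Qs (fun p => (p.2 : Place K F))

/-- the condition points -/
abbrev condPt {S : Type} (Zx : Fin g ⊕ Fin g → Finset (Place K F)) (O : Fin g → Place K' F')
    (E : (a : Fin g ⊕ Fin g) → ↥(Zx a) → S → Place K' F') :
    CondIdx g Zx → S → Place K' F' :=
  Sum.elim (fun i _ => O i) (fun p => E p.1 p.2)

end Index

set_option maxHeartbeats 1600000 in
/-- **P-FF row 822 (FF-G7-F2FAM)**: the family `F2(s) = ∑ κ_j(s) m_j`. -/
theorem f2Family (hAux : AuxSectionsStatement) (hBasis : LiftBasisStatement)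
    (hTA : TaylorApproxStatement) (hRA : RootApproxStatement) (hDZ : DiscZeroStatement)
    (hRK : RedKernelStatement) (hCr : CramerStatement) (hCoord : UnrCoordStatement) :
    F2FamilyStatement := by
  classical
  intro N ℓ A r g hS Qs O t hsys hg S _ n x hx Pt τ hPt hτ hτA
  -- (1) the auxiliary sections and the basis
  obtain ⟨Pinf, hPinfU, hAux'⟩ := hAux N ℓ A r g hS Qs O t hsys
  obtain ⟨n0, hn0⟩ := hBasis N ℓ A r g hS Pinf hPinfU
  obtain ⟨nn, u, Zx, hnn, huU, huRR, hfam⟩ := hAux' n0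
  have hn' : n0 ≤ ∑ a, nn a := by
    have a0 : Fin g ⊕ Fin g := Sum.inl ⟨0, hg⟩
    exact (hnn a0).trans
      (Finset.single_le_sum (f := nn) (fun _ _ => Nat.zero_le _) (Finset.mem_univ a0))
  obtain ⟨d, m, hd, hmU, hmRR, hmInd, -⟩ := hn0 (∑ a, nn a) hn'
  -- (2) the values `α a s = u_a(Pt s a)`
  have hα : ∀ a, ∃ α : S → A, (∀ s, HasValue (Pt s a) (u a : FLb N) (α s : Qb)) ∧
      IsApprox ℓ A x (fun s => (α s : Qb)) ∧ ∀ s, IsLocalRing.residue A (α s) = 0 := fun a =>
    exists_alpha hTA hS (hsys.coord (jproj a)) (u a) (huU a) (huRR a)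
      (hfam.qinf_ne (jproj a)) (hfam.zero_main a) x hx (fun s => Pt s a) (τ a)
      (fun s => hPt s a) (fun s => hτ s a) (hτA a)
  choose α hαval hαA hα0 using hα
  -- (3) the extra zeros
  have hE : ∀ (a : Fin g ⊕ Fin g) (v : ↥(Zx a)), ∃ E : S → Place Qb (FLb N),
      IsApproxPts ℓ A N r x (v : Place (kRes A) (Fkb A N)) E ∧
      ∀ s P1, r P1 = v →
        HasValue P1 ((u a : FLb N) - algebraMap Qb (FLb N) (α a s : Qb)) 0 → P1 = E s :=
    fun a v => exists_extra hTA hRA hDZ hCoord hS (u a) (huU a) (huRR a) v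
      (fun h => hfam.qinf_notMem a (h ▸ v.2)) (hfam.zero_extra a v v.2) x hx (α a) (hαA a)
      (hα0 a)
  choose E hEA hEuniq using hE
  -- (4) the conditions
  have hcard : Fintype.card (CondIdx g Zx) + 1 = d := by
    have h1 : Fintype.card (CondIdx g Zx)
        = g + ∑ a, (Zx a).card := by
      simp only [Fintype.card_sum, Fintype.card_fin, Fintype.card_sigma, Fintype.card_coe]
    have h2 : ∑ a, nn a = ∑ a, (Zx a).card + (g + g) := by
      have h : ∀ a, nn a = (Zx a).card + 1 := fun a => (hfam.card a).symm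
      simp only [h, Finset.sum_add_distrib, Finset.sum_const, Finset.card_univ,
        Fintype.card_sum, Fintype.card_fin, smul_eq_mul, mul_one]
    have h3 : (d : ℤ) = ((∑ a, nn a : ℕ) : ℤ) + 1 - (g : ℤ) := hd
    omega
  subst hcard
  have hQc : ∀ c : CondIdx g Zx, condQ Qs Zx c ≠ r Pinf := by
    rintro (i | ⟨a, v⟩)
    · exact hfam.qinf_ne i
    · exact fun h => hfam.qinf_notMem a (h ▸ v.2)
  have hpt : ∀ c : CondIdx g Zx,
      IsApproxPts ℓ A N r x (condQ Qs Zx c) (condPt Zx O E c) := by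
    rintro (i | ⟨a, v⟩)
    · have h := isApproxPts_const (ℓ := ℓ) hS (hsys.coord i).unrP (S := S) x
      rw [(hsys.coord i).red] at h
      exact h
    · exact hEA a v
  have hmnp : ∀ (c : CondIdx g Zx) j P1, r P1 = condQ Qs Zx c →
      0 ≤ P1.ord (m j : FLb N) := fun c j P1 hP1 => nopole_disc (hmRR j) (hQc c) P1 hP1
  have hxb : ∀ j, gaussRed A N (m j) ∈
      riemannRochSpace (Finsupp.single (r Pinf) (((∑ a, nn a : ℕ)) : ℤ)) := by
    intro j
    have h := hS.rv.red_mem_riemannRochSpace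
      (Finsupp.single Pinf (((∑ a, nn a : ℕ)) : ℤ)) (m j) (hmRR j)
    rwa [Finsupp.mapDomain_single] at h
  have hker : ∀ v w : Fin (Fintype.card (CondIdx g Zx) + 1) → kRes A,
      (∀ c, HasVal (condQ Qs Zx c)
        (∑ j, algebraMap (kRes A) (Fkb A N) (v j) * gaussRed A N (m j)) 0) →
      (∀ c, HasVal (condQ Qs Zx c)
        (∑ j, algebraMap (kRes A) (Fkb A N) (w j) * gaussRed A N (m j)) 0) →
      v ≠ 0 → ∃ a : kRes A, w = a • v := by
    intro v w hv hw hv0
    exact kernel_le_one hRK hS.pkgk hsys.inj hsys.nonspecial hfam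
      (fun j => gaussRed A N (m j)) hxb hmInd v w
      (fun i => hv (Sum.inl i)) (fun a q hq => hv (Sum.inr ⟨a, ⟨q, hq⟩⟩))
      (fun i => hw (Sum.inl i)) (fun a q hq => hw (Sum.inr ⟨a, ⟨q, hq⟩⟩)) hv0
  -- (5) Cramer
  obtain ⟨κ, hκA, hκval, hκred, hκne⟩ := exists_kappa hCr hS x hx
    (Fintype.card (CondIdx g Zx)) rfl (condQ Qs Zx) (condPt Zx O E) hpt m hmU hmnp hker
  refine ⟨Pinf, nn, u, Zx, α, _, m, κ, huRR, hfam, fun s a => hαval a s, hmU, hmRR, hκA,
    fun s => ?_, fun s i => hκval s (Sum.inl i), fun s a v hv P1 hP1 hval => ?_⟩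
  · -- the reduction of `F2 s`
    have hred : gaussRed A N (∑ j, gaussConst A N (κ j s) * m j) =
        ∑ j, algebraMap (kRes A) (Fkb A N) (IsLocalRing.residue A (κ j s)) *
          gaussRed A N (m j) := by
      rw [map_sum]
      refine Finset.sum_congr rfl fun j _ => ?_
      rw [map_mul, gaussRed_gaussConst]
    have hmem : (∑ j, algebraMap (kRes A) (Fkb A N) (IsLocalRing.residue A (κ j s)) *
        gaussRed A N (m j)) ∈
        riemannRochSpace (Finsupp.single (r Pinf) (((∑ a, nn a : ℕ)) : ℤ)) := by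
      refine Submodule.sum_mem _ fun j _ => ?_
      rw [← Algebra.smul_def]
      exact Submodule.smul_mem _ _ (hxb j)
    obtain ⟨γ, hγ⟩ := hRK (kRes A) (Fkb A N) g hS.pkgk Qs hsys.inj hsys.nonspecial (r Pinf) nn
      (fun a => gaussRed A N (u a)) Zx hfam _ hmem (fun i => hκred s (Sum.inl i))
      (fun a q hq => hκred s (Sum.inr ⟨a, ⟨q, hq⟩⟩))
    refine ⟨γ, ?_, by rw [hred, hγ]⟩
    rintro rfl
    rw [map_zero, zero_mul] at hγ
    obtain ⟨j, hj⟩ := hκne s
    apply hj
    have hli := Fintype.linearIndependent_iff.mp hmInd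
      (fun j => IsLocalRing.residue A (κ j s)) (by simpa [Algebra.smul_def] using hγ)
    exact hli j
  · -- the extra zeros
    have h := hEuniq a ⟨v, hv⟩ s P1 hP1 hval
    rw [h]
    exact hκval s (Sum.inr ⟨a, ⟨v, hv⟩⟩)

end Fermat.Agent.H62.FF
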